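/-
S56 / ORD, leaf DUAL-COORD.  Vectors `e + ε w` over the dual numbers.
-/
import Fermat.Agent.S56.Dict.Defs

set_option autoImplicit false

namespace Fermat.Agent.S56.Ord

open IsLocalRing Fermat.Agent.S53 Fermat.Agent.S53.Tangent

variable {𝒪 : Type} [CommRing 𝒪] [IsLocalRing 𝒪]

/-- The vector `e + ε w`. -/
noncomputable def dvec (e w : Fin 2 → ResidueField 𝒪) : Fin 2 → Dk 𝒪 := fun i => Dk.mk (e i) (w i)

theorem exists_dvec (v : Fin 2 → Dk 𝒪) : ∃ e w, v = dvec e w := by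
  choose e w h using fun i => Dk.exists_mk (v i)
  exact ⟨e, w, funext h⟩

theorem dvec_inj {e w e' w' : Fin 2 → ResidueField 𝒪} (h : dvec e w = dvec e' w') :
    e = e' ∧ w = w' :=
  ⟨funext fun i => (Dk.mk_inj (congrFun h i)).1, funext fun i => (Dk.mk_inj (congrFun h i)).2⟩

theorem dvec_sub (e w e' w' : Fin 2 → ResidueField 𝒪) :
    dvec e w - dvec e' w' = dvec (e - e') (w - w') := by
  funext i
  show (Dk.mk (e i) (w i) - Dk.mk (e' i) (w' i) : Dk 𝒪) = Dk.mk (e i - e' i) (w i - w' i)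
  rw [sub_eq_iff_eq_add, Dk.mk_add, sub_add_cancel, sub_add_cancel]

theorem mk_smul_dvec (t₀ t₁ : ResidueField 𝒪) (e w : Fin 2 → ResidueField 𝒪) :
    (Dk.mk t₀ t₁ : Dk 𝒪) • dvec e w = dvec (t₀ • e) (t₀ • w + t₁ • e) := by
  funext i
  show (Dk.mk t₀ t₁ * Dk.mk (e i) (w i) : Dk 𝒪) = Dk.mk (t₀ * e i) (t₀ * w i + t₁ * e i)
  rw [Dk.mk_mul, mul_comm (e i) t₁]

theorem dmat_mulVec (a b : M2 (ResidueField 𝒪)) (e w : Fin 2 → ResidueField 𝒪) :
    (dmat a b).mulVec (dvec e w) = dvec (a.mulVec e) (a.mulVec w + b.mulVec e) := by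
  funext i
  show (dmat a b).mulVec (dvec e w) i = Dk.mk (a.mulVec e i) (a.mulVec w i + b.mulVec e i)
  simp only [Matrix.mulVec, dotProduct, Fin.sum_univ_two, dmat_apply, dvec, Dk.mk_mul, Dk.mk_add]
  congr 1
  ring

/-- The first vector of a basis is nonzero modulo `ε`. -/
theorem ne_zero_of_basis (b : Module.Basis (Fin 2) (Dk 𝒪) (Fin 2 → Dk 𝒪))
    {e w : Fin 2 → ResidueField 𝒪} (h : b 0 = dvec e w) : e ≠ 0 := by
  rintro rfl
  have h1 : (Dk.mk 0 1 : Dk 𝒪) • b 0 = 0 := by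
    rw [h, mk_smul_dvec]
    funext i
    show (Dk.mk _ _ : Dk 𝒪) = 0
    rw [← Dk.mk_zero]
    simp
  have h2 : b.repr ((Dk.mk 0 1 : Dk 𝒪) • b 0) 0 = Dk.mk 0 1 := by
    rw [map_smul, Module.Basis.repr_self]
    simp
  rw [h1, LinearEquiv.map_zero, Finsupp.zero_apply, ← Dk.mk_zero] at h2
  exact zero_ne_one (Dk.mk_inj h2).2

end Fermat.Agent.S56.Ord
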