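/-
S56 / ORD, leaf DUAL-SCALARS.  Dual numbers: `x = a z`, `x z = a`, `a ∈ kˣ`, `2 ∈ kˣ` force
`z = ± 1 ∈ k`.
-/
import Fermat.Agent.S56.Dict.Defs

set_option autoImplicit false

namespace Fermat.Agent.S56.Ord

open IsLocalRing Fermat.Agent.S53 Fermat.Agent.S53.Tangent

variable {𝒪 : Type} [CommRing 𝒪] [IsLocalRing 𝒪]

theorem Dk_natCast (a : ℕ) : ((a : ℕ) : Dk 𝒪) = Dk.mk (a : ResidueField 𝒪) 0 := by
  induction a with
  | zero => rw [Nat.cast_zero, Nat.cast_zero, Dk.mk_zero]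
  | succ n ih => rw [Nat.cast_succ, Nat.cast_succ, ih, ← Dk.mk_one, Dk.mk_add, add_zero]

theorem Dk_span_p_eq_bot (p : ℕ) [CharP (ResidueField 𝒪) p] :
    Ideal.span {(p : Dk 𝒪)} = ⊥ := by
  rw [Ideal.span_singleton_eq_bot, Dk_natCast, CharP.cast_eq_zero, Dk.mk_zero]

theorem scalars_of_rel (h2 : (2 : ResidueField 𝒪) ≠ 0) {x z : Dk 𝒪} {a : ResidueField 𝒪}
    (ha : a ≠ 0) (h1 : x = Dk.mk a 0 * z) (h3 : x * z = Dk.mk a 0) :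
    ∃ z₀ : ResidueField 𝒪, z₀ * z₀ = 1 ∧ z = Dk.mk z₀ 0 ∧ x = Dk.mk (a * z₀) 0 := by
  obtain ⟨z₀, z₁, rfl⟩ := Dk.exists_mk z
  rw [Dk.mk_mul] at h1
  rw [h1, Dk.mk_mul] at h3
  obtain ⟨e1, e2⟩ := Dk.mk_inj h3
  have hz : z₀ * z₀ = 1 := by
    have : a * (z₀ * z₀) = a * 1 := by rw [mul_one, ← mul_assoc]; exact e1
    exact mul_left_cancel₀ ha this
  have hz0 : z₀ ≠ 0 := by
    intro h0
    rw [h0, mul_zero] at hz
    exact zero_ne_one hz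
  have hz1 : z₁ = 0 := by
    have h4 : a * z₀ * 2 * z₁ = 0 := by
      have : a * z₀ * 2 * z₁ = a * z₀ * z₁ + z₀ * (a * z₁ + z₀ * 0) := by ring
      rw [this]
      exact e2
    have h5 : a * z₀ * 2 ≠ 0 := mul_ne_zero (mul_ne_zero ha hz0) h2
    exact (mul_eq_zero.1 h4).resolve_left h5
  subst hz1
  refine ⟨z₀, hz, rfl, ?_⟩
  rw [h1]
  congr 1
  ring

end Fermat.Agent.S56.Ord
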