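/-
S56 / ORD, leaf DUAL-TRI.  The determinant of a matrix preserving a flag (any commutative ring).
Mathlib only.
-/
import Mathlib

set_option autoImplicit false

namespace Fermat.Agent.S56.Ord

theorem det_eq_mul_of_flag {A : Type} [CommRing A] (b : Module.Basis (Fin 2) A (Fin 2 → A))
    (M : Matrix (Fin 2) (Fin 2) A) (x z t : A) (h1 : M.mulVec (b 0) = x • b 0)
    (h2 : M.mulVec (b 1) - z • b 1 = t • b 0) : M.det = x * z := by
  have h2' : M.mulVec (b 1) = t • b 0 + z • b 1 := by
    rw [← h2]
    abel
  have e : LinearMap.toMatrix b b (Matrix.toLin' M) = !![x, t; 0, z] := by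
    ext i j
    rw [LinearMap.toMatrix_apply, Matrix.toLin'_apply]
    fin_cases j
    · change b.repr (M.mulVec (b 0)) i = _
      rw [h1, map_smul, b.repr_self]
      fin_cases i <;> simp
    · change b.repr (M.mulVec (b 1)) i = _
      rw [h2', map_add, map_smul, map_smul, b.repr_self, b.repr_self]
      fin_cases i <;> simp
  rw [← LinearMap.det_toLin', ← LinearMap.det_toMatrix b, e, Matrix.det_fin_two_of]
  ring

end Fermat.Agent.S56.Ord
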