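/-
S56 / ORD, leaf DUAL-UNFOLD.  Matrix form of `DetIsCyclotomic` + `IsStrictOrdinaryAt` for
`toAdic r hr` (level `n = 1` only), over any local ring.
-/
import Fermat.Agent.S56.Ord.Defs
import Fermat.Agent.S56.Ord.Dual.Tri

set_option autoImplicit false

namespace Fermat.Agent.S56.Ord

open Fermat.Agent.S53 (M2 Gal MatCont toAdic)

theorem unfold_so {A : Type} [CommRing A] [IsLocalRing A] (p : ℕ) (r : Gal →* M2 A)
    (hr : MatCont r) (hdet : (toAdic r hr).DetIsCyclotomic p)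
    (hso : (toAdic r hr).IsStrictOrdinaryAt p)
    (P : ValuationSubring (AlgebraicClosure ℚ)) (hP : P.LiesOverPrime p) :
    ∃ b : Module.Basis (Fin 2) A (Fin 2 → A),
      (∀ σ ∈ P.inertiaSubgroupIn ℚ, ∀ v : Fin 2 → A, ∃ t : A, (r σ).mulVec v - v = t • b 0) ∧
      (∀ σ ∈ P.decompositionSubgroup ℚ, ∃ x z : A, (r σ).mulVec (b 0) = x • b 0 ∧
        (∀ v : Fin 2 → A, ∃ t : A, (r σ).mulVec v - z • v = t • b 0) ∧
        ∀ a : ℕ, ActsPow p σ a → x - (a : A) * z ∈ Ideal.span {(p : A)} ∧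
          x * z - (a : A) ∈ Ideal.span {(p : A)}) := by
  obtain ⟨L, ⟨b, rfl⟩, hD, hI, hx⟩ := hso.2 P hP
  let b' : Module.Basis (Fin 2) A (Fin 2 → A) := b
  refine ⟨b', ?_, ?_⟩
  · intro σ hσ v
    obtain ⟨t, ht⟩ := Submodule.mem_span_singleton.1 (hI σ hσ v)
    exact ⟨t, ht.symm⟩
  · intro σ hσ
    obtain ⟨x, z, h1, h2, h3⟩ := hx σ hσ
    have h10 : (r σ).mulVec (b' 0) = x • b' 0 := h1 (b 0) (Submodule.mem_span_singleton_self _)
    refine ⟨x, z, h10, ?_, ?_⟩
    · intro v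
      obtain ⟨t, ht⟩ := Submodule.mem_span_singleton.1 (h2 v)
      exact ⟨t, ht.symm⟩
    · intro a ha
      have hpow : ∀ μ : AlgebraicClosure ℚ, μ ^ p ^ 1 = 1 → σ μ = μ ^ a := by
        intro μ hμ
        rw [pow_one] at hμ
        exact ha μ hμ
      have e1 := h3 1 a hpow
      have e2 := hdet.2 1 σ a hpow
      rw [pow_one] at e1 e2
      refine ⟨e1, ?_⟩
      obtain ⟨t, ht⟩ := Submodule.mem_span_singleton.1 (h2 (b 1))
      have hdetM : (r σ).det = x * z := det_eq_mul_of_flag b' (r σ) x z t h10 ht.symm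
      have hdetL : LinearMap.det ((toAdic r hr).ρ σ) = (r σ).det := by
        change LinearMap.det (r σ).mulVecLin = _
        rw [← Matrix.toLin'_apply', LinearMap.det_toLin']
      rw [hdetL, hdetM] at e2
      exact e2

end Fermat.Agent.S56.Ord
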