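/-
S56 / ORD, node DUAL-DATA (assembly of DUAL-UNFOLD, DUAL-SCALARS, DUAL-COORD).
What a strict ordinary lift `(1 + ε c) s` with cyclotomic determinant is, in coordinates over `k`.
-/
import Fermat.Agent.S56.Ord.Dual.Unfold
import Fermat.Agent.S56.Ord.Dual.Scalars
import Fermat.Agent.S56.Ord.Dual.Coord
import Fermat.Agent.S56.Ord.Arith.Roots

set_option autoImplicit false

namespace Fermat.Agent.S56.Ord

open IsLocalRing Fermat.Agent.S53 Fermat.Agent.S53.Tangent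

variable {𝒪 : Type} [CommRing 𝒪] [IsLocalRing 𝒪]

theorem exists_flag_data (p : ℕ) [Fact p.Prime] [CharP (ResidueField 𝒪) p] (hp2 : p ≠ 2)
    (s : Gal →* M2 (ResidueField 𝒪)) (c : Gal → M2 (ResidueField 𝒪))
    (r : Gal →* M2 (Dk 𝒪)) (hr : MatCont r) (hrc : ∀ g, r g = dmat (s g) (c g * s g))
    (hdet : (toAdic r hr).DetIsCyclotomic p) (hso : (toAdic r hr).IsStrictOrdinaryAt p)
    (P : ValuationSubring (AlgebraicClosure ℚ)) (hP : P.LiesOverPrime p) :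
    ∃ e w : Fin 2 → ResidueField 𝒪, e ≠ 0 ∧
      (∀ σ ∈ P.inertiaSubgroupIn ℚ, ∀ v : Fin 2 → ResidueField 𝒪,
        ∃ t : ResidueField 𝒪, (s σ).mulVec v - v = t • e) ∧
      (∀ σ ∈ P.decompositionSubgroup ℚ, ∀ a : ℕ, ActsPow p σ a →
        ∃ z : ResidueField 𝒪, z * z = 1 ∧
          (s σ).mulVec e = ((a : ResidueField 𝒪) * z) • e ∧
          (s σ).mulVec w + (c σ).mulVec ((s σ).mulVec e) = ((a : ResidueField 𝒪) * z) • w ∧
          ∀ v : Fin 2 → ResidueField 𝒪, ∃ t₀ t₁ : ResidueField 𝒪,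
            (s σ).mulVec v - z • v = t₀ • e ∧
            (c σ).mulVec ((s σ).mulVec v) = t₀ • w + t₁ • e) := by
  have hp : p.Prime := Fact.out
  obtain ⟨b, hI, hD⟩ := unfold_so p r hr hdet hso P hP
  obtain ⟨e, w, hb⟩ := exists_dvec (b 0)
  have he : e ≠ 0 := ne_zero_of_basis b hb
  have h2 : (2 : ResidueField 𝒪) ≠ 0 := by
    intro h
    have h' : ((2 : ℕ) : ResidueField 𝒪) = 0 := by exact_mod_cast h
    rw [CharP.cast_eq_zero_iff (ResidueField 𝒪) p] at h'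
    exact hp2 ((Nat.prime_dvd_prime_iff_eq hp Nat.prime_two).1 h')
  refine ⟨e, w, he, ?_, ?_⟩
  · intro σ hσ v
    obtain ⟨t, ht⟩ := hI σ hσ (dvec v 0)
    obtain ⟨t0, t1, rfl⟩ := Dk.exists_mk t
    rw [hrc, dmat_mulVec, dvec_sub, hb, mk_smul_dvec] at ht
    exact ⟨t0, (dvec_inj ht).1⟩
  · intro σ hσ a ha
    obtain ⟨x, z, hx, hz, hrel⟩ := hD σ hσ
    obtain ⟨h1, h3⟩ := hrel a ha
    rw [Dk_span_p_eq_bot, Ideal.mem_bot, sub_eq_zero, Dk_natCast] at h1 h3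
    have ha0 : (a : ResidueField 𝒪) ≠ 0 := by
      intro h
      rw [CharP.cast_eq_zero_iff (ResidueField 𝒪) p] at h
      exact not_dvd_of_pow p hp σ a ha h
    obtain ⟨z0, hz0, rfl, rfl⟩ := scalars_of_rel h2 ha0 h1 h3
    rw [hb, hrc, dmat_mulVec, mk_smul_dvec] at hx
    obtain ⟨hx1, hx2⟩ := dvec_inj hx
    refine ⟨z0, hz0, hx1, ?_, ?_⟩
    · rw [Matrix.mulVec_mulVec, hx2, zero_smul, add_zero]
    · intro v
      obtain ⟨t, ht⟩ := hz (dvec v 0)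
      obtain ⟨t0, t1, rfl⟩ := Dk.exists_mk t
      rw [hrc, dmat_mulVec, mk_smul_dvec, dvec_sub, hb, mk_smul_dvec] at ht
      obtain ⟨k1, k2⟩ := dvec_inj ht
      refine ⟨t0, t1, k1, ?_⟩
      rw [Matrix.mulVec_mulVec, ← k2]
      simp

end Fermat.Agent.S56.Ord
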